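import Fermat.Agent.S56.H314.AvlSpec

/-!
# S56 / W-BASE / AVL : `PermIsoStatement` (helper657)

Finite `G`-sets with equal marks have isogenous permutation lattices.

* `exists_equiv_of_char_eq` : over a field of characteristic `0`, finite-dimensional
  representations of a finite group with equal characters are isomorphic
  (Maschke + `Representation.card_inv_mul_sum_char_mul_char_eq_finrank`, induction on the
  dimension, splitting off a minimal subrepresentation);
* `permIso` : `Fermat.Agent.S56.H314.PermIsoStatement`.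

Mathlib only.
-/

set_option autoImplicit false

noncomputable section

namespace Fermat.Agent.S56.H657

open Module Representation

section General

variable {k : Type} [Field k] {G : Type} [Group G]

/-- trace is additive on complementary invariant subspaces -/
lemma trace_eq_add_of_isCompl {V : Type} [AddCommGroup V] [Module k V] [FiniteDimensional k V]
    (f : V →ₗ[k] V) (S T : Submodule k V) (h : IsCompl S T)
    (hS : ∀ v ∈ S, f v ∈ S) (hT : ∀ v ∈ T, f v ∈ T) :
    LinearMap.trace k V f =
      LinearMap.trace k S (f.restrict hS) + LinearMap.trace k T (f.restrict hT) := by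
  have key : f = (Submodule.prodEquivOfIsCompl S T h).conj
      ((f.restrict hS).prodMap (f.restrict hT)) := by
    apply LinearMap.ext
    intro v
    obtain ⟨⟨s, t⟩, rfl⟩ := (Submodule.prodEquivOfIsCompl S T h).surjective v
    simp [LinearEquiv.conj_apply, map_add]
  conv_lhs => rw [key]
  rw [LinearMap.trace_conj', LinearMap.trace_prodMap']

/-- a minimal nonzero invariant subspace -/
lemma exists_minimal_invariant {V : Type} [AddCommGroup V] [Module k V] [FiniteDimensional k V]
    [Nontrivial V] (ρ : Representation k G V) :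
    ∃ S : Submodule k V, S ≠ ⊥ ∧ (∀ g, ∀ v ∈ S, ρ g v ∈ S) ∧
      ∀ T : Submodule k V, T ≤ S → (∀ g, ∀ v ∈ T, ρ g v ∈ T) → T ≠ ⊥ → T = S := by
  classical
  let P : ℕ → Prop := fun d =>
    ∃ S : Submodule k V, S ≠ ⊥ ∧ (∀ g, ∀ v ∈ S, ρ g v ∈ S) ∧ finrank k S = d
  have hP : ∃ d, P d := ⟨finrank k (⊤ : Submodule k V), ⊤, top_ne_bot, fun _ _ _ => trivial, rfl⟩
  obtain ⟨S, hS0, hSst, hSd⟩ := Nat.find_spec hP
  refine ⟨S, hS0, hSst, fun T hTS hTst hT0 => ?_⟩
  have h1 : Nat.find hP ≤ finrank k T := Nat.find_min' hP ⟨T, hT0, hTst, rfl⟩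
  have h2 : finrank k T ≤ finrank k S := Submodule.finrank_mono hTS
  exact Submodule.eq_of_le_of_finrank_eq hTS (by omega)

/-- **Representations with equal characters are isomorphic** (characteristic `0`, finite
group). -/
theorem exists_equiv_of_char_eq [CharZero k] [Finite G] :
    ∀ (n : ℕ) {V W : Type} [AddCommGroup V] [Module k V] [FiniteDimensional k V]
      [AddCommGroup W] [Module k W] [FiniteDimensional k W]
      (ρ : Representation k G V) (σ : Representation k G W),
      finrank k V = n → (∀ g, ρ.character g = σ.character g) →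
      ∃ e : V ≃ₗ[k] W, ∀ g v, e (ρ g v) = σ g (e v) := by
  intro n
  induction n using Nat.strong_induction_on with
  | _ n ih =>
    intro V W _ _ _ _ _ _ ρ σ hn hχ
    have hdim : finrank k V = finrank k W := by
      have := hχ 1
      rw [char_one, char_one] at this
      exact_mod_cast this
    rcases Nat.eq_zero_or_pos n with h0 | hpos
    · have hV : Subsingleton V := (finrank_zero_iff (R := k)).mp (by omega)
      have hW : Subsingleton W := (finrank_zero_iff (R := k)).mp (by omega)
      exact ⟨LinearEquiv.ofSubsingleton V W, fun g v => Subsingleton.elim _ _⟩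
    · have hVnt : Nontrivial V := (finrank_pos_iff (R := k)).mp (by omega)
      obtain ⟨S, hS0, hSst, hSmin⟩ := exists_minimal_invariant ρ
      let S' : Subrepresentation ρ := ⟨S, fun g v hv => hSst g v hv⟩
      let ρS : Representation k G S := S'.toRepresentation
      have : Fintype G := Fintype.ofFinite G
      have : Invertible (Nat.card G : k) :=
        invertibleOfNonzero (by exact_mod_cast (Nat.card_pos (α := G)).ne')
      have h1 := card_inv_mul_sum_char_mul_char_eq_finrank ρS ρ
      have h2 := card_inv_mul_sum_char_mul_char_eq_finrank ρS σ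
      have h3 : finrank k (IntertwiningMap ρS ρ) = finrank k (IntertwiningMap ρS σ) := by
        have : ((finrank k (IntertwiningMap ρS ρ) : ℕ) : k) =
            (finrank k (IntertwiningMap ρS σ) : ℕ) := by
          rw [← h1, ← h2]
          simp_rw [hχ]
        exact_mod_cast this
      -- the inclusion is a nonzero intertwining map
      let ι : IntertwiningMap ρS ρ :=
        S.subtype.intertwiningMap_of_isIntertwiningMap ρS ρ (fun g v => rfl)
      have hι : ι ≠ 0 := by
        intro h
        apply hS0
        rw [Submodule.eq_bot_iff]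
        intro v hv
        have : ι ⟨v, hv⟩ = 0 := by rw [h]; rfl
        exact this
      have h4 : 0 < finrank k (IntertwiningMap ρS ρ) :=
        finrank_pos_iff_exists_ne_zero.mpr ⟨ι, hι⟩
      have h5 : Nontrivial (IntertwiningMap ρS σ) :=
        Module.nontrivial_of_finrank_pos (R := k) (by omega)
      obtain ⟨f, hf⟩ := exists_ne (0 : IntertwiningMap ρS σ)
      obtain ⟨f₀, hf₀, hf₀ne⟩ : ∃ f₀ : S →ₗ[k] W, (∀ g v, f₀ (ρS g v) = σ g (f₀ v)) ∧ f₀ ≠ 0 :=
        ⟨f.toLinearMap, fun g v => IntertwiningMap.isIntertwining ρS σ f g v,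
          fun h => hf (IntertwiningMap.ext h)⟩
      clear_value ι
      clear hι h4 h5 hf f h1 h2 h3 ι
      -- Schur: `f₀` is injective
      have hker : LinearMap.ker f₀ = ⊥ := by
        by_contra hker
        let K : Submodule k V := (LinearMap.ker f₀).map S.subtype
        have hKS : K ≤ S := by
          rintro _ ⟨v, -, rfl⟩
          exact v.2
        have hKst : ∀ g, ∀ v ∈ K, ρ g v ∈ K := by
          rintro g _ ⟨v, hv, rfl⟩
          refine ⟨ρS g v, ?_, rfl⟩
          rw [SetLike.mem_coe, LinearMap.mem_ker] at hv ⊢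
          rw [hf₀, hv, map_zero]
        have hK0 : K ≠ ⊥ := by
          intro h
          apply hker
          rw [Submodule.eq_bot_iff]
          intro v hv
          have hvK : (v : V) ∈ K := ⟨v, hv, rfl⟩
          rw [h, Submodule.mem_bot] at hvK
          exact Subtype.ext hvK
        have hKeq := hSmin K hKS hKst hK0
        apply hf₀ne
        apply LinearMap.ext
        intro v
        have hv : (v : V) ∈ K := by rw [hKeq]; exact v.2
        obtain ⟨w, hw, hwv⟩ := hv
        have hwv' : w = v := Subtype.ext hwv
        subst hwv'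
        exact hw
      have hfinj : Function.Injective f₀ := LinearMap.ker_eq_bot.mp hker
      -- complements (Maschke)
      have : NeZero (Nat.card G : k) := ⟨by exact_mod_cast (Nat.card_pos (α := G)).ne'⟩
      obtain ⟨T', hT'⟩ := exists_isCompl S'
      have hST : IsCompl S T'.toSubmodule :=
        IsCompl.of_eq (congrArg Subrepresentation.toSubmodule hT'.inf_eq_bot)
          (congrArg Subrepresentation.toSubmodule hT'.sup_eq_top)
      let R' : Subrepresentation σ := ⟨LinearMap.range f₀, by
        rintro g _ ⟨v, rfl⟩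
        exact ⟨ρS g v, hf₀ g v⟩⟩
      obtain ⟨U', hU'⟩ := exists_isCompl R'
      have hRU : IsCompl (LinearMap.range f₀) U'.toSubmodule :=
        IsCompl.of_eq (congrArg Subrepresentation.toSubmodule hU'.inf_eq_bot)
          (congrArg Subrepresentation.toSubmodule hU'.sup_eq_top)
      have hRst : ∀ g, ∀ w ∈ LinearMap.range f₀, σ g w ∈ LinearMap.range f₀ :=
        fun g w hw => R'.apply_mem_toSubmodule g hw
      have hTst : ∀ g, ∀ v ∈ T'.toSubmodule, ρ g v ∈ T'.toSubmodule :=
        fun g v hv => T'.apply_mem_toSubmodule g hv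
      have hUst : ∀ g, ∀ w ∈ U'.toSubmodule, σ g w ∈ U'.toSubmodule :=
        fun g w hw => U'.apply_mem_toSubmodule g hw
      let eS : S ≃ₗ[k] LinearMap.range f₀ := LinearEquiv.ofInjective f₀ hfinj
      have heS : ∀ g (v : S), eS ((ρ g).restrict (hSst g) v) = (σ g).restrict (hRst g) (eS v) := by
        intro g v
        apply Subtype.ext
        exact hf₀ g v
      -- characters of the complements agree
      have hχT : ∀ g, T'.toRepresentation.character g = U'.toRepresentation.character g := by
        intro g
        have e1 := trace_eq_add_of_isCompl (ρ g) S T'.toSubmodule hST (hSst g) (hTst g)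
        have e2 := trace_eq_add_of_isCompl (σ g) (LinearMap.range f₀) U'.toSubmodule hRU
          (hRst g) (hUst g)
        have e3 : LinearMap.trace k S ((ρ g).restrict (hSst g)) =
            LinearMap.trace k (LinearMap.range f₀) ((σ g).restrict (hRst g)) := by
          have : (σ g).restrict (hRst g) = eS.conj ((ρ g).restrict (hSst g)) := by
            apply LinearMap.ext
            intro w
            obtain ⟨v, rfl⟩ := eS.surjective w
            rw [LinearEquiv.conj_apply_apply, LinearEquiv.symm_apply_apply, heS]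
          rw [this, LinearMap.trace_conj']
        have e4 : LinearMap.trace k V (ρ g) = LinearMap.trace k W (σ g) := hχ g
        change LinearMap.trace k _ ((ρ g).restrict (hTst g)) =
          LinearMap.trace k _ ((σ g).restrict (hUst g))
        linear_combination e4 - e1 + e2 - e3
      have hSpos : 0 < finrank k S := by
        rw [finrank_pos_iff_exists_ne_zero]
        obtain ⟨v, hv, hv0⟩ := (Submodule.ne_bot_iff S).mp hS0
        exact ⟨⟨v, hv⟩, fun h => hv0 (congrArg Subtype.val h)⟩
      have hsum : finrank k S + finrank k T'.toSubmodule = finrank k V :=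
        Submodule.finrank_add_eq_of_isCompl hST
      obtain ⟨eT, heT⟩ := ih (finrank k T'.toSubmodule) (by omega) T'.toRepresentation
        U'.toRepresentation rfl hχT
      let P := Submodule.prodEquivOfIsCompl S T'.toSubmodule hST
      let Q := Submodule.prodEquivOfIsCompl (LinearMap.range f₀) U'.toSubmodule hRU
      have he : ∀ (s : S) (t : T'.toSubmodule),
          (P.symm ≪≫ₗ (eS.prodCongr eT) ≪≫ₗ Q) (P (s, t)) = (eS s : W) + (eT t : W) := by
        intro s t
        rw [LinearEquiv.trans_apply, LinearEquiv.trans_apply, LinearEquiv.symm_apply_apply,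
          LinearEquiv.prodCongr_apply]
        exact Submodule.coe_prodEquivOfIsCompl' _ _ hRU _
      refine ⟨P.symm ≪≫ₗ (eS.prodCongr eT) ≪≫ₗ Q, fun g v => ?_⟩
      obtain ⟨⟨s, t⟩, rfl⟩ := P.surjective v
      have h1 : ρ g (P (s, t)) = P ((ρ g).restrict (hSst g) s, (ρ g).restrict (hTst g) t) := by
        change ρ g ((s : V) + (t : V)) = (ρ g s : V) + (ρ g t : V)
        rw [map_add]
      rw [h1, he, he, heS]
      have h2 : eT ((ρ g).restrict (hTst g) t) = (σ g).restrict (hUst g) (eT t) := heT g t
      rw [h2, map_add]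
      rfl

end General

section Perm

open Fermat.Agent.S56.H314

variable {G : Type} [Group G]

/-- the permutation representation `ℚ[X]`, as functions: `(g • f) x = f (g⁻¹ • x)` -/
def permQ (X : Type) [MulAction G X] : Representation ℚ G (X → ℚ) where
  toFun g :=
    { toFun := fun f x => f (g⁻¹ • x)
      map_add' := fun _ _ => rfl
      map_smul' := fun _ _ => rfl }
  map_one' := by
    ext f x
    simp
  map_mul' g h := by
    ext f x
    simp [mul_smul]

@[simp] lemma permQ_apply (X : Type) [MulAction G X] (g : G) (f : X → ℚ) (x : X) :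
    permQ X g f x = f (g⁻¹ • x) := rfl

lemma permQ_single (X : Type) [MulAction G X] [DecidableEq X] (g : G) (x : X) :
    permQ X g (Pi.single x 1) = Pi.single (g • x) 1 := by
  funext z
  rw [permQ_apply, Pi.single_apply, Pi.single_apply]
  congr 1
  rw [eq_iff_iff, inv_smul_eq_iff]

/-- the character of `ℚ[X]` is the number of fixed points -/
lemma character_permQ (X : Type) [MulAction G X] [Finite X] (g : G) :
    (permQ X).character g = (marks X g : ℚ) := by
  classical
  have : Fintype X := Fintype.ofFinite X
  unfold Representation.character marks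
  rw [LinearMap.trace_eq_matrix_trace ℚ (Pi.basisFun ℚ X), Matrix.trace]
  simp only [Matrix.diag_apply, LinearMap.toMatrix_apply, Pi.basisFun_apply, Pi.basisFun_repr,
    permQ_apply, Pi.single_apply]
  rw [Finset.sum_boole, Nat.card_eq_fintype_card, Fintype.card_subtype]
  congr 2
  ext x
  simp only [Finset.mem_filter, Finset.mem_univ, true_and]
  rw [inv_smul_eq_iff, eq_comm]

/-- clearing the denominator of a rational number -/
def clr (d : ℕ) (q : ℚ) : ℤ := ((d / q.den : ℕ) : ℤ) * q.num

lemma clr_cast {d : ℕ} {q : ℚ} (h : q.den ∣ d) : ((clr d q : ℤ) : ℚ) = (d : ℚ) * q := by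
  obtain ⟨c, rfl⟩ := h
  have hq := Rat.mul_den_eq_num q
  unfold clr
  rw [Nat.mul_div_cancel_left c q.den_pos]
  push_cast
  rw [← hq]
  ring

lemma exists_clear_denominators {X Y : Type} [Fintype X] [Fintype Y] (A : Matrix Y X ℚ) :
    ∃ (d : ℕ) (a : Matrix Y X ℤ), 0 < d ∧ a.map (Int.cast : ℤ → ℚ) = (d : ℚ) • A ∧
      ∀ y x y' x', A y x = A y' x' → a y x = a y' x' := by
  refine ⟨∏ y, ∏ x, (A y x).den, Matrix.of fun y x => clr (∏ y, ∏ x, (A y x).den) (A y x),
    ?_, ?_, ?_⟩
  · exact Finset.prod_pos fun y _ => Finset.prod_pos fun x _ => (A y x).den_pos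
  · ext y x
    rw [Matrix.map_apply, Matrix.smul_apply, smul_eq_mul, Matrix.of_apply]
    apply clr_cast
    exact (Finset.dvd_prod_of_mem (fun x => (A y x).den) (Finset.mem_univ x)).trans
      (Finset.dvd_prod_of_mem (fun y => ∏ x, (A y x).den) (Finset.mem_univ y))
  · intro y x y' x' h
    simp only [Matrix.of_apply, h]

/-- an integral matrix with the symmetry `a y (g x) = a (g⁻¹ y) x` is equivariant -/
lemma mulVecLin_equivariant {X Y : Type} [Fintype X] [MulAction G X] [MulAction G Y]
    (a : Matrix Y X ℤ) (ha : ∀ (g : G) y x, a y (g • x) = a (g⁻¹ • y) x) (g : G) (v : X → ℤ) :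
    a.mulVecLin (permZ (G := G) X g v) = permZ (G := G) Y g (a.mulVecLin v) := by
  funext y
  simp only [Matrix.mulVecLin_apply, Matrix.mulVec, dotProduct, permZ_apply]
  rw [← Equiv.sum_comp (MulAction.toPerm g)]
  refine Finset.sum_congr rfl fun x _ => ?_
  rw [MulAction.toPerm_apply, inv_smul_smul, ha]

/-- **Permutation lattices with equal marks are isogenous.** -/
theorem permIso : PermIsoStatement := by
  intro G _ _ X Y _ _ _ _ hmarks
  classical
  have : Fintype X := Fintype.ofFinite X
  have : Fintype Y := Fintype.ofFinite Y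
  obtain ⟨e, he⟩ := exists_equiv_of_char_eq (k := ℚ) (G := G) _ (permQ X) (permQ Y) rfl
    (fun g => by rw [character_permQ, character_permQ, hmarks g])
  have he' : ∀ (g : G) (w : Y → ℚ), e.symm (permQ Y g w) = permQ X g (e.symm w) := by
    intro g w
    apply e.injective
    rw [e.apply_symm_apply, he, e.apply_symm_apply]
  have hAB : LinearMap.toMatrix' e.toLinearMap * LinearMap.toMatrix' e.symm.toLinearMap = 1 := by
    rw [← LinearMap.toMatrix'_comp, ← LinearMap.toMatrix'_id]
    congr 1
    ext v : 1
    simp
  have hBA : LinearMap.toMatrix' e.symm.toLinearMap * LinearMap.toMatrix' e.toLinearMap = 1 := by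
    rw [← LinearMap.toMatrix'_comp, ← LinearMap.toMatrix'_id]
    congr 1
    ext v : 1
    simp
  have hMA : ∀ (g : G) y x, LinearMap.toMatrix' e.toLinearMap y (g • x) =
      LinearMap.toMatrix' e.toLinearMap (g⁻¹ • y) x := by
    intro g y x
    rw [LinearMap.toMatrix'_apply, LinearMap.toMatrix'_apply, ← permQ_single]
    exact congrFun (he g (Pi.single x 1)) y
  have hMB : ∀ (g : G) x y, LinearMap.toMatrix' e.symm.toLinearMap x (g • y) =
      LinearMap.toMatrix' e.symm.toLinearMap (g⁻¹ • x) y := by
    intro g x y
    rw [LinearMap.toMatrix'_apply, LinearMap.toMatrix'_apply, ← permQ_single]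
    exact congrFun (he' g (Pi.single y 1)) x
  obtain ⟨d, a, hd, ha, ha'⟩ := exists_clear_denominators (LinearMap.toMatrix' e.toLinearMap)
  obtain ⟨d', b, hd', hb, hb'⟩ :=
    exists_clear_denominators (LinearMap.toMatrix' e.symm.toLinearMap)
  have hae : ∀ y x, ((a y x : ℤ) : ℚ) = (d : ℚ) * LinearMap.toMatrix' e.toLinearMap y x :=
    fun y x => congrFun (congrFun ha y) x
  have hbe : ∀ x y, ((b x y : ℤ) : ℚ) = (d' : ℚ) * LinearMap.toMatrix' e.symm.toLinearMap x y :=
    fun x y => congrFun (congrFun hb x) y
  have hab : a * b = ((d * d' : ℕ) : ℤ) • (1 : Matrix Y Y ℤ) := by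
    ext i j
    apply Int.cast_injective (α := ℚ)
    have h := congrFun (congrFun hAB i) j
    rw [Matrix.mul_apply] at h
    rw [Matrix.mul_apply, Matrix.smul_apply, smul_eq_mul]
    push_cast
    simp_rw [hae, hbe]
    have h1 : ∀ x, (d : ℚ) * LinearMap.toMatrix' e.toLinearMap i x *
        ((d' : ℚ) * LinearMap.toMatrix' e.symm.toLinearMap x j) =
        (d : ℚ) * d' * (LinearMap.toMatrix' e.toLinearMap i x *
          LinearMap.toMatrix' e.symm.toLinearMap x j) := fun x => by ring
    simp_rw [h1]
    rw [← Finset.mul_sum, h]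
    simp [Matrix.one_apply]
  have hba : b * a = ((d * d' : ℕ) : ℤ) • (1 : Matrix X X ℤ) := by
    ext i j
    apply Int.cast_injective (α := ℚ)
    have h := congrFun (congrFun hBA i) j
    rw [Matrix.mul_apply] at h
    rw [Matrix.mul_apply, Matrix.smul_apply, smul_eq_mul]
    push_cast
    simp_rw [hae, hbe]
    have h1 : ∀ x, (d' : ℚ) * LinearMap.toMatrix' e.symm.toLinearMap i x *
        ((d : ℚ) * LinearMap.toMatrix' e.toLinearMap x j) =
        (d : ℚ) * d' * (LinearMap.toMatrix' e.symm.toLinearMap i x *
          LinearMap.toMatrix' e.toLinearMap x j) := fun x => by ring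
    simp_rw [h1]
    rw [← Finset.mul_sum, h]
    simp [Matrix.one_apply]
  refine ⟨a.mulVecLin, b.mulVecLin, d * d', Nat.mul_pos hd hd', ?_, ?_, ?_, ?_⟩
  · exact mulVecLin_equivariant a (fun g y x => ha' _ _ _ _ (hMA g y x))
  · exact mulVecLin_equivariant b (fun g x y => hb' _ _ _ _ (hMB g x y))
  · intro v
    rw [Matrix.mulVecLin_apply, Matrix.mulVecLin_apply, Matrix.mulVec_mulVec, hab,
      Matrix.smul_mulVec, Matrix.one_mulVec, Nat.cast_smul_eq_nsmul]
  · intro v
    rw [Matrix.mulVecLin_apply, Matrix.mulVecLin_apply, Matrix.mulVec_mulVec, hba,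
      Matrix.smul_mulVec, Matrix.one_mulVec, Nat.cast_smul_eq_nsmul]

end Perm

end Fermat.Agent.S56.H657
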